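/-
S18 / wave 4, piece D1 (fibres), helper46 — part 1: the ring of functions without poles over
`x = c`, and the SWAP lemma D1(d).

Setting: `F/K` a field extension, `x : F`, `c : K`.  "`P` lies over `c`" means
`0 < P.ord (x - algebraMap K F c)` for a place `P : Place K F`.

* `fibreRing x c` : the subring `{f | ∀ P over c, 0 ≤ P.ord f}` of `F` (`mem_fibreRing`).
* `aeval_mem_fibreRing`, `inv_aeval_mem_fibreRing` : polynomials in `x` are regular over `c`, and
  units there if they do not vanish at `c`.
* `swap_core`, `swap` : D1(d).  If `θ` is a `K(x)`-spanning family (resp. basis) of `F` inside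
  `fibreRing x c`, then either every `f ∈ fibreRing x c` has coordinates regular over `c`, or some
  `(∑ a_i θ_i)/(x - c)` with `a ∈ K^ι ∖ 0` lies in `fibreRing x c`.

Imports only Mathlib, the Prelude definition of places and the landed `S24/H52` file.
-/
import Mathlib
import Fermat.Prelude.Def_AlgebraicCurve_DivisorClassGroup
import Fermat.Agent.S24.H52.AddValMore

set_option autoImplicit false

open AlgebraicCurve IntermediateField Polynomial

noncomputable section

namespace Fermat.Agent.S18.H46

open Fermat.Agent.S24.H52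

variable {K F : Type*} [Field K] [Field F] [Algebra K F]

/-- The valuation ring of a place as a `K`-subalgebra of `F`. -/
def placeSubalgebra (P : Place K F) : Subalgebra K F :=
  { P.toValuationSubring.toSubring with algebraMap_mem' := P.algebraMap_mem' }

theorem mem_placeSubalgebra {P : Place K F} {f : F} :
    f ∈ placeSubalgebra P ↔ f ∈ P.toValuationSubring := Iff.rfl

/-- `f ∈ O_P ↔ 0 ≤ ord_P f` (including `f = 0`). -/
theorem mem_place_iff (P : Place K F) (f : F) : f ∈ P.toValuationSubring ↔ 0 ≤ P.ord f := by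
  by_cases hf : f = 0
  · subst hf
    simp [P.toValuationSubring.zero_mem]
  · exact mem_iff_ord_nonneg P hf

/-- A nonzero constant has order `0`. -/
theorem ord_const (P : Place K F) {a : K} (_ha : a ≠ 0) : P.ord (algebraMap K F a) = 0 := by
  have h1 := ord_nonneg_of_mem P (P.algebraMap_mem' a)
  have h2 := ord_nonneg_of_mem P (P.algebraMap_mem' a⁻¹)
  rw [map_inv₀, P.ord_inv] at h2
  omega

/-- The ring of functions without poles over `x = c`. -/
def fibreRing (x : F) (c : K) : Subring F :=
  ⨅ P : {P : Place K F // 0 < P.ord (x - algebraMap K F c)}, P.1.toValuationSubring.toSubring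

theorem mem_fibreRing {x : F} {c : K} {f : F} :
    f ∈ fibreRing x c ↔ ∀ P : Place K F, 0 < P.ord (x - algebraMap K F c) → 0 ≤ P.ord f := by
  simp only [fibreRing, Subring.mem_iInf, Subtype.forall]
  refine forall₂_congr fun P _ => ?_
  exact mem_place_iff P f

theorem mem_fibreRing' {x : F} {c : K} {f : F} :
    f ∈ fibreRing x c ↔
      ∀ P : Place K F, 0 < P.ord (x - algebraMap K F c) → f ∈ P.toValuationSubring := by
  rw [mem_fibreRing]
  exact forall₂_congr fun P _ => (mem_place_iff P f).symm

theorem algebraMap_mem_fibreRing (x : F) (c a : K) : algebraMap K F a ∈ fibreRing x c :=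
  mem_fibreRing'.mpr fun P _ => P.algebraMap_mem' a

/-- `x - c` is regular over `c`. -/
theorem sub_mem_fibreRing (x : F) (c : K) : x - algebraMap K F c ∈ fibreRing x c :=
  mem_fibreRing.mpr fun _ hP => hP.le

/-- `x` lies in the valuation ring of every place over `c`. -/
theorem x_mem_of_over {x : F} {c : K} {P : Place K F} (hP : 0 < P.ord (x - algebraMap K F c)) :
    x ∈ P.toValuationSubring := by
  have h1 : x - algebraMap K F c ∈ P.toValuationSubring := (mem_place_iff P _).mpr hP.le
  have h2 := P.toValuationSubring.add_mem _ _ h1 (P.algebraMap_mem' c)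
  simpa using h2

/-- Polynomials in `x` lie in the valuation ring of every place at which `x` is integral. -/
theorem aeval_mem_place {x : F} {P : Place K F} (hx : x ∈ P.toValuationSubring) (p : K[X]) :
    aeval x p ∈ P.toValuationSubring := by
  have h : Algebra.adjoin K {x} ≤ placeSubalgebra P :=
    Algebra.adjoin_le (Set.singleton_subset_iff.mpr (mem_placeSubalgebra.mpr hx))
  exact h (aeval_mem_adjoin_singleton K x)

theorem aeval_mem_fibreRing (x : F) (c : K) (p : K[X]) : aeval x p ∈ fibreRing x c :=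
  mem_fibreRing'.mpr fun _ hP => aeval_mem_place (x_mem_of_over hP) p

/-- Taylor expansion to first order at `c`. -/
theorem aeval_eq_eval_add (x : F) (c : K) (p : K[X]) :
    aeval x p = algebraMap K F (p.eval c) +
      (x - algebraMap K F c) * aeval x (p /ₘ (X - C c)) := by
  have h := congrArg (aeval x) (modByMonic_add_div p (X - C c))
  rw [modByMonic_X_sub_C_eq_C_eval, map_add, map_mul, map_sub, aeval_X, aeval_C, aeval_C] at h
  exact h.symm

/-- A polynomial in `x` not vanishing at `c` is a unit at every place over `c`. -/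
theorem ord_aeval_eq_zero {x : F} {c : K} {P : Place K F}
    (hP : 0 < P.ord (x - algebraMap K F c)) {p : K[X]} (hp : p.eval c ≠ 0) :
    aeval x p ≠ 0 ∧ P.ord (aeval x p) = 0 := by
  have ht : x - algebraMap K F c ≠ 0 := by
    intro h
    rw [h, Place.ord_zero] at hP
    exact lt_irrefl _ hP
  have ha : algebraMap K F (p.eval c) ≠ 0 := by simpa using hp
  have h := (isAddVal_ord P).map_add_eq_of_lt (f := algebraMap K F (p.eval c))
    (g := (x - algebraMap K F c) * aeval x (p /ₘ (X - C c))) ha (by
      by_cases hz : aeval x (p /ₘ (X - C c)) = 0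
      · left
        rw [hz, mul_zero]
      · right
        rw [ord_const P hp, P.ord_mul ht hz]
        have := ord_nonneg_of_mem P (aeval_mem_place (x_mem_of_over hP) (p /ₘ (X - C c)))
        omega)
  rw [← aeval_eq_eval_add, ord_const P hp] at h
  exact h

theorem inv_aeval_mem_fibreRing (x : F) (c : K) {p : K[X]} (hp : p.eval c ≠ 0) :
    (aeval x p)⁻¹ ∈ fibreRing x c := by
  refine mem_fibreRing.mpr fun P hP => ?_
  rw [P.ord_inv, (ord_aeval_eq_zero hP hp).2]
  simp

/-- Induction step behind SWAP: if no `(∑ a_i θ_i)/(x-c)` with `a ≠ 0` is regular over `c`, then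
numerators of a regular element are divisible by the same power of `x - c` as the denominator. -/
theorem swap_aux {ι : Type*} [Fintype ι] (x : F) (c : K) (ht : x - algebraMap K F c ≠ 0)
    (θ : ι → F) (hθ : ∀ i, θ i ∈ fibreRing x c)
    (hno : ∀ a : ι → K, (∑ i, algebraMap K F (a i) * θ i) / (x - algebraMap K F c) ∈
      fibreRing x c → a = 0) (m : ℕ) :
    ∀ (f : F) (q₁ : K[X]) (p : ι → K[X]), f ∈ fibreRing x c →
      (x - algebraMap K F c) ^ m * aeval x q₁ * f = ∑ i, aeval x (p i) * θ i →
      ∀ i, ∃ g : K[X], aeval x (p i) = (x - algebraMap K F c) ^ m * aeval x g := by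
  induction m with
  | zero =>
    intro f q₁ p _ _ i
    exact ⟨p i, by simp⟩
  | succ m ih =>
    intro f q₁ p hf heq i
    set t : F := x - algebraMap K F c with htdef
    -- first-order Taylor expansion of the numerators
    have hexp : ∀ j, aeval x (p j) = algebraMap K F ((p j).eval c) +
        t * aeval x (p j /ₘ (X - C c)) := fun j => aeval_eq_eval_add x c (p j)
    have hsum : (∑ j, algebraMap K F ((p j).eval c) * θ j) / t =
        t ^ m * aeval x q₁ * f - ∑ j, aeval x (p j /ₘ (X - C c)) * θ j := by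
      rw [div_eq_iff ht]
      have h1 : ∑ j, aeval x (p j) * θ j = ∑ j, algebraMap K F ((p j).eval c) * θ j +
          t * ∑ j, aeval x (p j /ₘ (X - C c)) * θ j := by
        rw [Finset.mul_sum, ← Finset.sum_add_distrib]
        refine Finset.sum_congr rfl fun j _ => ?_
        rw [hexp j]; ring
      rw [← heq] at h1
      linear_combination -h1
    have hmem : (∑ j, algebraMap K F ((p j).eval c) * θ j) / t ∈ fibreRing x c := by
      rw [hsum]
      refine Subring.sub_mem _ (Subring.mul_mem _ (Subring.mul_mem _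
        (Subring.pow_mem _ (sub_mem_fibreRing x c) m) (aeval_mem_fibreRing x c q₁)) hf)
        (Subring.sum_mem _ fun j _ => Subring.mul_mem _ (aeval_mem_fibreRing x c _) (hθ j))
    have ha := hno (fun j => (p j).eval c) hmem
    have ha' : ∀ j, (p j).eval c = 0 := fun j => congrFun ha j
    have hexp' : ∀ j, aeval x (p j) = t * aeval x (p j /ₘ (X - C c)) := fun j => by
      rw [hexp j, ha' j, map_zero, zero_add]
    have heq' : t ^ m * aeval x q₁ * f = ∑ j, aeval x (p j /ₘ (X - C c)) * θ j := by
      have h2 : t * (t ^ m * aeval x q₁ * f) = t * ∑ j, aeval x (p j /ₘ (X - C c)) * θ j := by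
        rw [Finset.mul_sum]
        have h3 : ∑ j, aeval x (p j) * θ j = ∑ j, t * (aeval x (p j /ₘ (X - C c)) * θ j) :=
          Finset.sum_congr rfl fun j _ => by rw [hexp' j]; ring
        rw [← h3, ← heq]; ring
      exact mul_left_cancel₀ ht h2
    obtain ⟨g, hg⟩ := ih f q₁ (fun j => p j /ₘ (X - C c)) hf heq' i
    exact ⟨g, by rw [hexp' i, hg]; ring⟩

/-- Common denominator for finitely many elements of `K(x)`. -/
theorem exists_common_denom {ι : Type*} [Fintype ι] (x : F) (r : ι → K⟮x⟯) :
    ∃ (q : K[X]) (p : ι → K[X]), aeval x q ≠ 0 ∧ ∀ i, (r i : F) * aeval x q = aeval x (p i) := by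
  classical
  have h1 : ∀ i, ∃ pq : K[X] × K[X], aeval x pq.2 ≠ 0 ∧ (r i : F) * aeval x pq.2 = aeval x pq.1 := by
    intro i
    obtain ⟨p, q, hpq⟩ := (mem_adjoin_simple_iff K (r i : F)).mp (r i).2
    by_cases hq : aeval x q = 0
    · refine ⟨(0, 1), by simp, ?_⟩
      rw [hpq, hq, div_zero]; simp
    · exact ⟨(p, q), hq, by rw [hpq]; field_simp⟩
  choose pq hq hpq using h1
  refine ⟨∏ i, (pq i).2, fun i => (pq i).1 * ∏ j ∈ Finset.univ.erase i, (pq j).2, ?_, fun i => ?_⟩
  · rw [map_prod]
    exact Finset.prod_ne_zero_iff.mpr fun i _ => hq i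
  · rw [← Finset.mul_prod_erase Finset.univ (fun j => (pq j).2) (Finset.mem_univ i), map_mul,
      map_mul, ← mul_assoc, hpq i]

/-- **SWAP, D1(d)** (spanning-family form).  `θ` a family inside `fibreRing x c` spanning `F`
over `K(x)`.  Either every element of `fibreRing x c` has coordinates which are regular over `c`,
or there is `a ∈ K^ι ∖ 0` with `(∑ a_i θ_i)/(x - c)` regular over `c`. -/
theorem swap_core {ι : Type*} [Fintype ι] (x : F) (c : K) (ht : x - algebraMap K F c ≠ 0)
    (θ : ι → F) (hθ : ∀ i, θ i ∈ fibreRing x c)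
    (hspan : ∀ f : F, ∃ r : ι → K⟮x⟯, f = ∑ i, (r i : F) * θ i) :
    (∀ f ∈ fibreRing x c, ∃ r : ι → K⟮x⟯, f = ∑ i, (r i : F) * θ i ∧
        ∀ i, (r i : F) ∈ fibreRing x c) ∨
      ∃ a : ι → K, a ≠ 0 ∧
        (∑ i, algebraMap K F (a i) * θ i) / (x - algebraMap K F c) ∈ fibreRing x c := by
  by_cases hno : ∃ a : ι → K, a ≠ 0 ∧
      (∑ i, algebraMap K F (a i) * θ i) / (x - algebraMap K F c) ∈ fibreRing x c
  · exact Or.inr hno
  left
  have hno' : ∀ a : ι → K, (∑ i, algebraMap K F (a i) * θ i) / (x - algebraMap K F c) ∈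
      fibreRing x c → a = 0 := by
    intro a ha
    by_contra h0
    exact hno ⟨a, h0, ha⟩
  intro f hf
  obtain ⟨r, hr⟩ := hspan f
  refine ⟨r, hr, ?_⟩
  obtain ⟨q, p, hq, hp⟩ := exists_common_denom x r
  have hq0 : q ≠ 0 := by
    rintro rfl
    simp at hq
  obtain ⟨q₁, hq₁, hndvd⟩ := exists_eq_pow_rootMultiplicity_mul_and_not_dvd q hq0 c
  have hq₁c : q₁.eval c ≠ 0 := fun h => hndvd (dvd_iff_isRoot.mpr h)
  set m := q.rootMultiplicity c with hm
  set t : F := x - algebraMap K F c with htdef
  have hqx : aeval x q = t ^ m * aeval x q₁ := by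
    conv_lhs => rw [hq₁]
    simp [htdef]
  have heq : t ^ m * aeval x q₁ * f = ∑ i, aeval x (p i) * θ i := by
    rw [← hqx, hr, Finset.mul_sum]
    refine Finset.sum_congr rfl fun i _ => ?_
    rw [← hp i]; ring
  have hdiv := swap_aux x c ht θ hθ hno' m f q₁ p hf heq
  intro i
  obtain ⟨g, hg⟩ := hdiv i
  have hq₁x : aeval x q₁ ≠ 0 := by
    intro h
    rw [hqx, h, mul_zero] at hq
    exact hq rfl
  have hri : (r i : F) = aeval x g * (aeval x q₁)⁻¹ := by
    have h1 := hp i
    rw [hqx, hg] at h1
    have h2 : (r i : F) * aeval x q₁ = aeval x g := by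
      have h3 : t ^ m * ((r i : F) * aeval x q₁) = t ^ m * aeval x g := by
        rw [← h1]; ring
      exact mul_left_cancel₀ (pow_ne_zero m ht) h3
    rw [← h2, mul_assoc, mul_inv_cancel₀ hq₁x, mul_one]
  rw [hri]
  exact Subring.mul_mem _ (aeval_mem_fibreRing x c g) (inv_aeval_mem_fibreRing x c hq₁c)

/-- **SWAP, D1(d)** in the shape of the fibre package: `θ : Fin μ → F` a `K(x)`-linearly
independent family of `μ = [F : K(x)]` functions without poles over `c`. -/
theorem swap (x : F) [FiniteDimensional K⟮x⟯ F] (c : K) (ht : x - algebraMap K F c ≠ 0)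
    (θ : Fin (Module.finrank K⟮x⟯ F) → F)
    (hθ : ∀ i, ∀ P : Place K F, 0 < P.ord (x - algebraMap K F c) → 0 ≤ P.ord (θ i))
    (hli : LinearIndependent K⟮x⟯ θ) :
    (∀ f : F, (∀ P : Place K F, 0 < P.ord (x - algebraMap K F c) → 0 ≤ P.ord f) →
        ∃ r : Fin (Module.finrank K⟮x⟯ F) → K⟮x⟯, f = ∑ i, (r i : F) * θ i ∧
          ∀ i, ∀ P : Place K F, 0 < P.ord (x - algebraMap K F c) → 0 ≤ P.ord (r i : F)) ∨
      ∃ a : Fin (Module.finrank K⟮x⟯ F) → K, a ≠ 0 ∧
        ∀ P : Place K F, 0 < P.ord (x - algebraMap K F c) →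
          0 ≤ P.ord ((∑ i, algebraMap K F (a i) * θ i) / (x - algebraMap K F c)) := by
  have hspan : ∀ f : F, ∃ r : Fin (Module.finrank K⟮x⟯ F) → K⟮x⟯, f = ∑ i, (r i : F) * θ i := by
    intro f
    have : Nonempty (Fin (Module.finrank K⟮x⟯ F)) :=
      Fin.pos_iff_nonempty.mp Module.finrank_pos
    obtain ⟨b, hb⟩ : ∃ b : Module.Basis (Fin (Module.finrank K⟮x⟯ F)) K⟮x⟯ F, ⇑b = θ :=
      ⟨basisOfLinearIndependentOfCardEqFinrank hli (by simp),
        coe_basisOfLinearIndependentOfCardEqFinrank hli _⟩
    refine ⟨fun i => b.repr f i, ?_⟩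
    conv_lhs => rw [← b.sum_repr f]
    refine Finset.sum_congr rfl fun i _ => ?_
    rw [hb, Algebra.smul_def]
    rfl
  rcases swap_core x c ht θ (fun i => mem_fibreRing.mpr (hθ i)) hspan with h | h
  · left
    intro f hf
    obtain ⟨r, hr, hr'⟩ := h f (mem_fibreRing.mpr hf)
    exact ⟨r, hr, fun i => mem_fibreRing.mp (hr' i)⟩
  · right
    obtain ⟨a, ha, ha'⟩ := h
    exact ⟨a, ha, mem_fibreRing.mp ha'⟩

end Fermat.Agent.S18.H46
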