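/-
S18 / wave 4, piece D1 (fibres), helper46 — part 2: the local ring over `x = c`.

Built on helper42's landed `x`-chart (`Fermat/Agent/S18/H42/{PlaceDict,Chart,FibreSum}.lean`):
`Rx K x = K[x]`, `Bx K x` = integral closure of `K[x]` in `F`.

* `exists_mul_mem_Bx` (DICT): a function `f` without poles over `x = c` satisfies `s f ∈ Bx K x`
  for some `s ∈ K[x]` with `s ≡ 1 mod (x - c)` (prime avoidance + Nakayama).
* `exists_basis_Bx` : a `K[x]`-basis of `Bx K x` which is a `K(x)`-basis of `F`.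
* `exists_local_basis'`, `exists_local_basis` (**FIB7**).
* `trace_mem_fibreRing`, `norm_mem_fibreRing`, `ord_trace_nonneg`, `ord_norm_nonneg` (**FIB8**).
-/
import Fermat.Agent.S18.H42.FibreSum
import Fermat.Agent.S18.H46.FibSwap

set_option autoImplicit false

open AlgebraicCurve IsDedekindDomain Polynomial IntermediateField
open scoped IntermediateField.algebraAdjoinAdjoin

noncomputable section

namespace Fermat.Agent.S18.H46

open Fermat.Agent.S24.H52
open scoped Fermat.Agent.S18.H42.ChartInst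

variable {K F : Type*} [Field K] [Field F] [Algebra K F] {x : F}

/-- An element of `K[x]` congruent to `1` modulo `x - c` is a unit at every place over `c`. -/
theorem ord_eq_zero_of_sub_one_mem_pc {c : K} {s : H42.Rx K x} (hs : s - 1 ∈ H42.pc K x c)
    {P : Place K F} (hP : 0 < P.ord (x - algebraMap K F c)) :
    (s : F) ≠ 0 ∧ P.ord (s : F) = 0 := by
  obtain ⟨r, hr⟩ := Ideal.mem_span_singleton'.mp hs
  have hsF : (s : F) = 1 + (r : F) * (x - algebraMap K F c) := by
    have h1 := congrArg (Subtype.val) hr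
    have h2 : (r : F) * (x - algebraMap K F c) = (s : F) - 1 := h1
    rw [h2]; ring
  have ht : x - algebraMap K F c ≠ 0 := by
    intro h
    rw [h, Place.ord_zero] at hP
    exact lt_irrefl _ hP
  have hrP : (r : F) ∈ P.toValuationSubring := H42.Rx_mem_of_mem P (x_mem_of_over hP) r.2
  have h := (isAddVal_ord P).map_add_eq_of_lt (f := (1 : F))
    (g := (r : F) * (x - algebraMap K F c)) one_ne_zero (by
      by_cases hz : (r : F) = 0
      · left
        rw [hz, zero_mul]
      · right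
        rw [P.ord_one, P.ord_mul hz ht]
        have := ord_nonneg_of_mem P hrP
        omega)
  rw [← hsF, P.ord_one] at h
  exact h

variable [hx : Fact (Transcendental K x)] [FiniteDimensional K⟮x⟯ F] [CharZero K]

/-- **(DICT)** A function without poles over `x = c` becomes integral over `K[x]` after
multiplication by some `s ∈ K[x]`, `s ≡ 1 mod (x - c)`. -/
theorem exists_mul_mem_Bx (c : K) {f : F} (hf : f ∈ fibreRing x c) :
    ∃ s : H42.Rx K x, s - 1 ∈ H42.pc K x c ∧ (s : F) * f ∈ H42.Bx K x := by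
  classical
  by_cases hf0 : f = 0
  · exact ⟨1, by simp, by simp [hf0]⟩
  -- the denominator ideal of `f`
  let D : Ideal (H42.Bx K x) :=
    { carrier := {b | (b : F) * f ∈ H42.Bx K x}
      add_mem' := by
        intro a b ha hb
        show ((a + b : H42.Bx K x) : F) * f ∈ H42.Bx K x
        have : ((a + b : H42.Bx K x) : F) * f = (a : F) * f + (b : F) * f := by
          push_cast; ring
        rw [this]
        exact Subalgebra.add_mem _ ha hb
      zero_mem' := by
        show ((0 : H42.Bx K x) : F) * f ∈ H42.Bx K x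
        simp
      smul_mem' := by
        intro a b hb
        show ((a * b : H42.Bx K x) : F) * f ∈ H42.Bx K x
        have : ((a * b : H42.Bx K x) : F) * f = (a : F) * ((b : F) * f) := by
          push_cast; ring
        rw [this]
        exact Subalgebra.mul_mem _ a.2 hb }
  have hDmem : ∀ b : H42.Bx K x, b ∈ D ↔ (b : F) * f ∈ H42.Bx K x := fun b => Iff.rfl
  -- `D` is not contained in any prime over `c`
  have hstep1 : ∀ v : HeightOneSpectrum (H42.Bx K x), H42.xsubB K x c ∈ v.asIdeal →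
      ∃ d ∈ D, d ∉ v.asIdeal := by
    intro v hv
    have hover := (H42.chartPlace_over_iff v c).mpr hv
    have h1 := mem_fibreRing.mp hf _ hover
    rw [H42.chartPlace_ord v hf0, H42.primeOrd_nonneg_iff v hf0] at h1
    obtain ⟨n, d, hnd⟩ := v.exists_primeCompl_mul_eq_of_integer f h1
    refine ⟨d, ?_, d.2⟩
    rw [hDmem]
    have : ((d : H42.Bx K x) : F) * f = (n : F) := by
      rw [mul_comm]; exact hnd
    rw [this]
    exact n.2
  -- hence `D + (x - c) = 1`
  have hstep2 : D ⊔ Ideal.span {H42.xsubB K x c} = ⊤ := by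
    by_contra hne
    obtain ⟨M, hM, hle⟩ := Ideal.exists_le_maximal _ hne
    have hxM : H42.xsubB K x c ∈ M :=
      hle (Ideal.mem_sup_right (Ideal.subset_span rfl))
    have hMne : M ≠ ⊥ := by
      intro hbot
      rw [hbot, Ideal.mem_bot] at hxM
      exact H42.xsubB_ne_zero c hxM
    let v : HeightOneSpectrum (H42.Bx K x) := ⟨M, hM.isPrime, hMne⟩
    obtain ⟨d, hdD, hdv⟩ := hstep1 v hxM
    exact hdv (hle (Ideal.mem_sup_left hdD))
  obtain ⟨d, hdD, y, hy, hdy⟩ := Submodule.mem_sup.mp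
    (show (1 : H42.Bx K x) ∈ D ⊔ Ideal.span {H42.xsubB K x c} by rw [hstep2]; trivial)
  obtain ⟨b₁, hb₁⟩ := Ideal.mem_span_singleton'.mp hy
  -- Nakayama for the finite `K[x]`-module `B ⧸ D`
  let D' : Submodule (H42.Rx K x) (H42.Bx K x) := D.restrictScalars (H42.Rx K x)
  have hD' : ∀ b : H42.Bx K x, b ∈ D' ↔ b ∈ D := fun b => Iff.rfl
  have hle : (⊤ : Submodule (H42.Rx K x) (H42.Bx K x ⧸ D')) ≤ H42.pc K x c • ⊤ := by
    intro z _
    obtain ⟨b, rfl⟩ := Submodule.Quotient.mk_surjective D' z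
    have hb : b = d * b + H42.xsubB K x c * (b₁ * b) := by
      calc b = 1 * b := (one_mul b).symm
        _ = (d + b₁ * H42.xsubB K x c) * b := by rw [hb₁, hdy]
        _ = d * b + H42.xsubB K x c * (b₁ * b) := by ring
    have hz : (Submodule.Quotient.mk b : H42.Bx K x ⧸ D') =
        H42.xsubR K x c • (Submodule.Quotient.mk (b₁ * b) : H42.Bx K x ⧸ D') := by
      rw [← Submodule.Quotient.mk_smul, Submodule.Quotient.eq, hD']
      have h1 : b - H42.xsubR K x c • (b₁ * b) = d * b := by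
        rw [Algebra.smul_def]
        show b - H42.xsubB K x c * (b₁ * b) = d * b
        linear_combination hb
      rw [h1]
      exact D.mul_mem_right b hdD
    rw [hz]
    exact Submodule.smul_mem_smul (Ideal.subset_span rfl) Submodule.mem_top
  obtain ⟨s, hs1, hs⟩ := Submodule.exists_sub_one_mem_and_smul_eq_zero_of_fg_of_le_smul
    (H42.pc K x c) (⊤ : Submodule (H42.Rx K x) (H42.Bx K x ⧸ D')) Module.Finite.fg_top hle
  refine ⟨s, hs1, ?_⟩
  have h1 := hs (Submodule.Quotient.mk 1) Submodule.mem_top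
  rw [← Submodule.Quotient.mk_smul, Submodule.Quotient.mk_eq_zero, hD', hDmem] at h1
  have h3 : ((s • (1 : H42.Bx K x) : H42.Bx K x) : F) = (s : F) := by
    rw [Algebra.smul_def, mul_one]
    rfl
  rwa [h3] at h1

omit [FiniteDimensional K⟮x⟯ F] [CharZero K] in
/-- An element of `K[x]` congruent to `1` modulo `x - c` is nonzero. -/
theorem ne_zero_of_sub_one_mem_pc {c : K} {s : H42.Rx K x} (hs : s - 1 ∈ H42.pc K x c) :
    (s : F) ≠ 0 := by
  intro h0
  have hs0 : s = 0 := Subtype.ext h0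
  rw [hs0, zero_sub] at hs
  have h1 : (1 : H42.Rx K x) ∈ H42.pc K x c := by
    have := (H42.pc K x c).neg_mem hs
    simpa using this
  exact (H42.pc_isMaximal K x c).ne_top ((Ideal.eq_top_iff_one _).mpr h1)

omit hx [FiniteDimensional K⟮x⟯ F] [CharZero K] in
/-- If `s^n g = ρ` with `s, ρ ∈ K[x]`, `s ≡ 1 mod (x - c)`, then `g` has no poles over `c`. -/
theorem mem_fibreRing_of_pow_mul_eq {c : K} {s ρ : H42.Rx K x} (hs : s - 1 ∈ H42.pc K x c)
    {g : F} (n : ℕ) (h : (s : F) ^ n * g = (ρ : F)) : g ∈ fibreRing x c := by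
  refine mem_fibreRing'.mpr fun P hP => ?_
  obtain ⟨hs0, hsord⟩ := ord_eq_zero_of_sub_one_mem_pc hs hP
  have hg : g = (ρ : F) * ((s : F)⁻¹) ^ n := by
    rw [← h, inv_pow]
    field_simp
  have hsinv : (s : F)⁻¹ ∈ P.toValuationSubring := by
    rw [mem_place_iff, P.ord_inv, hsord]
    simp
  rw [hg]
  exact P.toValuationSubring.mul_mem _ _ (H42.Rx_mem_of_mem P (x_mem_of_over hP) ρ.2)
    (pow_mem hsinv n)

/-- The integral closure of `K[x]` has no poles over any `c`. -/
theorem Bx_le_fibreRing (c : K) {b : F} (hb : b ∈ H42.Bx K x) : b ∈ fibreRing x c :=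
  mem_fibreRing'.mpr fun P hP => H42.Bx_mem_of_mem P (x_mem_of_over hP) ⟨b, hb⟩

/-- A `K[x]`-basis of the integral closure of `K[x]` in `F`; it is a `K(x)`-basis of `F`. -/
theorem exists_basis_Bx :
    ∃ θ : Fin (Module.finrank K⟮x⟯ F) → F, LinearIndependent K⟮x⟯ θ ∧
      (∀ i, θ i ∈ H42.Bx K x) ∧
      ∀ b ∈ H42.Bx K x, ∃ ρ : Fin (Module.finrank K⟮x⟯ F) → H42.Rx K x,
        b = ∑ i, (ρ i : F) * θ i := by
  have : Module.Free (H42.Rx K x) (H42.Bx K x) := Module.free_of_finite_type_torsion_free'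
  have hrank : Module.finrank (H42.Rx K x) (H42.Bx K x) = Module.finrank K⟮x⟯ F :=
    (IsFractionRing.finrank_eq (H42.Rx K x) K⟮x⟯ (H42.Bx K x) F).symm
  let b := Module.finBasisOfFinrankEq (H42.Rx K x) (H42.Bx K x) hrank
  have : IsLocalization
      (Algebra.algebraMapSubmonoid (H42.Bx K x) (nonZeroDivisors (H42.Rx K x))) F :=
    IsIntegralClosure.isLocalization (H42.Rx K x) K⟮x⟯ F (H42.Bx K x)
  let bF := b.localizationLocalization K⟮x⟯ (nonZeroDivisors (H42.Rx K x)) F
  refine ⟨fun i => (b i : F), ?_, fun i => (b i).2, ?_⟩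
  · have h := bF.linearIndependent
    have he : (fun i => (b i : F)) = ⇑bF := by
      funext i
      exact (Module.Basis.localizationLocalization_apply K⟮x⟯
        (nonZeroDivisors (H42.Rx K x)) F b i).symm
    rw [he]
    exact h
  · intro y hy
    refine ⟨fun i => b.repr ⟨y, hy⟩ i, ?_⟩
    have h := congrArg (Subtype.val) (b.sum_repr ⟨y, hy⟩)
    calc y = ((∑ i, b.repr ⟨y, hy⟩ i • b i : H42.Bx K x) : F) := h.symm
      _ = ∑ i, ((b.repr ⟨y, hy⟩ i : H42.Rx K x) : F) * (b i : F) := by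
        simp only [AddSubmonoidClass.coe_finsetSum]
        refine Finset.sum_congr rfl fun i _ => ?_
        rfl

/-- **FIB7** (uniform form): one `K(x)`-basis of `F` which is, for every `c`, a basis of the ring
of functions without poles over `c` over the local ring of `K(x)` at `c`. -/
theorem exists_local_basis' :
    ∃ θ : Fin (Module.finrank K⟮x⟯ F) → F, LinearIndependent K⟮x⟯ θ ∧ ∀ c : K,
      (∀ i, θ i ∈ fibreRing x c) ∧ ∀ f ∈ fibreRing x c,
        ∃ r : Fin (Module.finrank K⟮x⟯ F) → K⟮x⟯, f = ∑ i, (r i : F) * θ i ∧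
          ∀ i, (r i : F) ∈ fibreRing x c := by
  obtain ⟨θ, hli, hθB, hspan⟩ := exists_basis_Bx (K := K) (F := F) (x := x)
  refine ⟨θ, hli, fun c => ⟨fun i => Bx_le_fibreRing c (hθB i), fun f hf => ?_⟩⟩
  obtain ⟨s, hs1, hsf⟩ := exists_mul_mem_Bx c hf
  obtain ⟨ρ, hρ⟩ := hspan _ hsf
  have hs0 : (s : F) ≠ 0 := ne_zero_of_sub_one_mem_pc hs1
  refine ⟨fun i => algebraMap (H42.Rx K x) K⟮x⟯ (ρ i) / algebraMap (H42.Rx K x) K⟮x⟯ s, ?_,
    fun i => ?_⟩
  · have h1 : f = (s : F)⁻¹ * ((s : F) * f) := by field_simp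
    rw [h1, hρ, Finset.mul_sum]
    refine Finset.sum_congr rfl fun i _ => ?_
    simp only [IntermediateField.coe_div, algebraAdjoinAdjoin.coe_algebraMap]
    field_simp
  · refine mem_fibreRing_of_pow_mul_eq hs1 (ρ := ρ i) 1 ?_
    simp only [IntermediateField.coe_div, algebraAdjoinAdjoin.coe_algebraMap, pow_one]
    field_simp

/-- **FIB8** (traces): the trace of a function without poles over `c` has no pole at `c`. -/
theorem trace_mem_fibreRing (c : K) {f : F} (hf : f ∈ fibreRing x c) :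
    ((Algebra.trace K⟮x⟯ F f : K⟮x⟯) : F) ∈ fibreRing x c := by
  obtain ⟨s, hs1, hsf⟩ := exists_mul_mem_Bx c hf
  have hint : IsIntegral (H42.Rx K x) ((algebraMap (H42.Rx K x) K⟮x⟯ s) • f) := by
    have h0 : (algebraMap (H42.Rx K x) K⟮x⟯ s) • f = (s : F) * f := by
      rw [Algebra.smul_def]
      rfl
    rw [h0]
    exact hsf
  have h1 := Algebra.isIntegral_trace (L := K⟮x⟯) hint
  rw [map_smul, smul_eq_mul] at h1
  obtain ⟨ρ, hρ⟩ := IsIntegrallyClosed.isIntegral_iff.mp h1
  refine mem_fibreRing_of_pow_mul_eq hs1 (ρ := ρ) 1 ?_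
  have h2 := congrArg (fun z : K⟮x⟯ => (z : F)) hρ
  simp only [IntermediateField.coe_mul, algebraAdjoinAdjoin.coe_algebraMap] at h2
  rw [pow_one]
  exact h2.symm

/-- **FIB8** (norms): the norm of a function without poles over `c` has no pole at `c`. -/
theorem norm_mem_fibreRing (c : K) {f : F} (hf : f ∈ fibreRing x c) :
    ((Algebra.norm K⟮x⟯ f : K⟮x⟯) : F) ∈ fibreRing x c := by
  obtain ⟨s, hs1, hsf⟩ := exists_mul_mem_Bx c hf
  have hint : IsIntegral (H42.Rx K x)
      (algebraMap K⟮x⟯ F (algebraMap (H42.Rx K x) K⟮x⟯ s) * f) := hsf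
  have h1 := Algebra.isIntegral_norm K⟮x⟯ hint
  rw [map_mul, Algebra.norm_algebraMap] at h1
  obtain ⟨ρ, hρ⟩ := IsIntegrallyClosed.isIntegral_iff.mp h1
  refine mem_fibreRing_of_pow_mul_eq hs1 (ρ := ρ) (Module.finrank K⟮x⟯ F) ?_
  have h2 := congrArg (fun z : K⟮x⟯ => (z : F)) hρ
  simp only [IntermediateField.coe_mul, IntermediateField.coe_pow,
    algebraAdjoinAdjoin.coe_algebraMap] at h2
  exact h2.symm

end Fermat.Agent.S18.H46

/-! ### Instance-free statements (shape of the fibre package, report #1232) -/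

namespace Fermat.Agent.S18.H46

variable {K F : Type*} [Field K] [Field F] [Algebra K F] [CharZero K]
  (x : F) [FiniteDimensional K⟮x⟯ F]

/-- **FIB7** `exists_local_basis`: a `K(x)`-basis of `F` which is a basis of the ring of functions
without poles over `c` over the local ring of `K(x)` at `c`.  (The same `θ` works for every `c`:
see `exists_local_basis'`.) -/
theorem exists_local_basis (hx : Transcendental K x) (c : K) :
    ∃ θ : Fin (Module.finrank K⟮x⟯ F) → F,
      (∀ i, ∀ P : Place K F, 0 < P.ord (x - algebraMap K F c) → 0 ≤ P.ord (θ i)) ∧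
      LinearIndependent K⟮x⟯ θ ∧
      ∀ f : F, (∀ P : Place K F, 0 < P.ord (x - algebraMap K F c) → 0 ≤ P.ord f) →
        ∃ r : Fin (Module.finrank K⟮x⟯ F) → K⟮x⟯, f = ∑ i, (r i : F) * θ i ∧
          ∀ i, ∀ P : Place K F, 0 < P.ord (x - algebraMap K F c) → 0 ≤ P.ord (r i : F) := by
  have : Fact (Transcendental K x) := ⟨hx⟩
  obtain ⟨θ, hli, h⟩ := exists_local_basis' (K := K) (F := F) (x := x)
  refine ⟨θ, fun i => mem_fibreRing.mp ((h c).1 i), hli, fun f hf => ?_⟩
  obtain ⟨r, hr, hr'⟩ := (h c).2 f (mem_fibreRing.mpr hf)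
  exact ⟨r, hr, fun i => mem_fibreRing.mp (hr' i)⟩

/-- **FIB7**, uniform in `c`. -/
theorem exists_uniform_local_basis (hx : Transcendental K x) :
    ∃ θ : Fin (Module.finrank K⟮x⟯ F) → F, LinearIndependent K⟮x⟯ θ ∧ ∀ c : K,
      (∀ i, ∀ P : Place K F, 0 < P.ord (x - algebraMap K F c) → 0 ≤ P.ord (θ i)) ∧
      ∀ f : F, (∀ P : Place K F, 0 < P.ord (x - algebraMap K F c) → 0 ≤ P.ord f) →
        ∃ r : Fin (Module.finrank K⟮x⟯ F) → K⟮x⟯, f = ∑ i, (r i : F) * θ i ∧
          ∀ i, ∀ P : Place K F, 0 < P.ord (x - algebraMap K F c) → 0 ≤ P.ord (r i : F) := by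
  have : Fact (Transcendental K x) := ⟨hx⟩
  obtain ⟨θ, hli, h⟩ := exists_local_basis' (K := K) (F := F) (x := x)
  refine ⟨θ, hli, fun c => ⟨fun i => mem_fibreRing.mp ((h c).1 i), fun f hf => ?_⟩⟩
  obtain ⟨r, hr, hr'⟩ := (h c).2 f (mem_fibreRing.mpr hf)
  exact ⟨r, hr, fun i => mem_fibreRing.mp (hr' i)⟩

/-- **FIB8** (traces). -/
theorem ord_trace_nonneg (hx : Transcendental K x) (c : K) {f : F}
    (hf : ∀ P : Place K F, 0 < P.ord (x - algebraMap K F c) → 0 ≤ P.ord f) :
    ∀ P : Place K F, 0 < P.ord (x - algebraMap K F c) →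
      0 ≤ P.ord ((Algebra.trace K⟮x⟯ F f : K⟮x⟯) : F) := by
  have : Fact (Transcendental K x) := ⟨hx⟩
  exact mem_fibreRing.mp (trace_mem_fibreRing c (mem_fibreRing.mpr hf))

/-- **FIB8** (norms). -/
theorem ord_norm_nonneg (hx : Transcendental K x) (c : K) {f : F}
    (hf : ∀ P : Place K F, 0 < P.ord (x - algebraMap K F c) → 0 ≤ P.ord f) :
    ∀ P : Place K F, 0 < P.ord (x - algebraMap K F c) →
      0 ≤ P.ord ((Algebra.norm K⟮x⟯ f : K⟮x⟯) : F) := by
  have : Fact (Transcendental K x) := ⟨hx⟩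
  exact mem_fibreRing.mp (norm_mem_fibreRing c (mem_fibreRing.mpr hf))

/-- **(DICT)**, instance-free: a function without poles over `c` is `b / s(x)` with `b` integral
over `K[x]` and `s` a polynomial with `s(c) = 1`. -/
theorem exists_aeval_mul_isIntegral (hx : Transcendental K x) (c : K) {f : F}
    (hf : ∀ P : Place K F, 0 < P.ord (x - algebraMap K F c) → 0 ≤ P.ord f) :
    ∃ s : K[X], s.eval c = 1 ∧ IsIntegral (Algebra.adjoin K {x}) (aeval x s * f) := by
  have : Fact (Transcendental K x) := ⟨hx⟩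
  obtain ⟨s, hs1, hsf⟩ := exists_mul_mem_Bx c (mem_fibreRing.mpr hf)
  obtain ⟨r, hr⟩ := Ideal.mem_span_singleton'.mp hs1
  obtain ⟨q, hq⟩ : ∃ q : K[X], aeval x q = (r : F) := by
    have h0 : (r : F) ∈ Algebra.adjoin K {x} := r.2
    rw [Algebra.adjoin_singleton_eq_range_aeval] at h0
    exact h0
  refine ⟨1 + q * (X - C c), by simp, ?_⟩
  have hsF : (s : F) = aeval x (1 + q * (X - C c)) := by
    have h1 := congrArg (Subtype.val) hr
    have h2 : (r : F) * (x - algebraMap K F c) = (s : F) - 1 := h1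
    simp only [map_add, map_one, map_mul, map_sub, aeval_X, aeval_C, hq, h2]
    ring
  rw [← hsF]
  exact hsf

end Fermat.Agent.S18.H46
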